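/-
S55 (Poitou–Tate), package C1, leaf C1-d (helper36): dévissage of the cohomology of a finite group
to its cyclic layers of prime order.  Mathlib only.

* `resMapIso` : `Hⁿ(N, A) ≅ Hⁿ(N.map H.subtype, A)` for `N ≤ H ≤ G`.
* `exists_normal_index_eq_prime` : a nontrivial finite `p`-group has a normal subgroup of index `p`.
* `isZero_H1_of_isPGroup` : `H¹(H, A) = 0` for the `p`-subgroups `H` of `G`, if `H¹` vanishes on
  the layers of prime order.
* `natCard_dvd_of_exact` : `#X₂ ∣ #X₁ * #X₃` for an exact short complex of modules.
* `natCard_H2_dvd_of_isPGroup` : `#H²(H, A) ∣ #H` for the `p`-subgroups, from an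
  inflation-restriction divisibility.
-/
import Mathlib

set_option autoImplicit false

universe u

open CategoryTheory groupCohomology Rep

namespace Fermat.Agent.S55.H36

variable {k G : Type u} [CommRing k] [Group G]

/-- `Hⁿ(N, A) ≅ Hⁿ(N.map H.subtype, A)` for subgroups `N ≤ H ≤ G`. -/
noncomputable def resMapIso (A : Rep k G) (H : Subgroup G) (N : Subgroup H) (n : ℕ) :
    groupCohomology (res N.subtype (res H.subtype A)) n ≅
      groupCohomology (res (N.map H.subtype).subtype A) n :=
  mapIso (A := res (N.map H.subtype).subtype A) (B := res N.subtype (res H.subtype A))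
    (N.equivMapOfInjective H.subtype H.subtype_injective) (LinearEquiv.refl k _)
    (fun g => by
      ext x
      rfl) n

/-- A nontrivial finite `p`-group has a normal subgroup of index `p`. -/
theorem exists_normal_index_eq_prime {H : Type*} [Group H] [Finite H] [Nontrivial H] (p : ℕ)
    [hp : Fact p.Prime] (hH : IsPGroup p H) : ∃ N : Subgroup H, N.Normal ∧ N.index = p := by
  obtain ⟨n, hn⟩ := (IsPGroup.iff_card (p := p)).mp hH
  have hn0 : n ≠ 0 := by
    rintro rfl
    rw [pow_zero] at hn
    have := Finite.one_lt_card (α := H)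
    omega
  obtain ⟨m, rfl⟩ := Nat.exists_eq_succ_of_ne_zero hn0
  obtain ⟨N, hN⟩ := Sylow.exists_subgroup_card_pow_prime (G := H) p (n := m)
    (by rw [hn]; exact pow_dvd_pow p (Nat.le_succ m))
  have hidx : N.index = p := by
    have h1 := N.index_mul_card
    rw [hN, hn, pow_succ] at h1
    have hpos : 0 < p ^ m := pow_pos hp.out.pos m
    have h2 : N.index * p ^ m = p * p ^ m := by rw [h1, mul_comm]
    exact Nat.eq_of_mul_eq_mul_right hpos h2
  refine ⟨N, ?_, hidx⟩
  apply Subgroup.normal_of_index_eq_minFac_card
  rw [hidx, hn, Nat.pow_minFac (Nat.succ_ne_zero m), hp.out.minFac_eq]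

/-- **C1-d, degree 1, `p`-subgroups.**  If `H¹` vanishes on the layers of prime order, then
`H¹(H, A) = 0` for every `p`-subgroup `H` of `G`. -/
theorem isZero_H1_of_isPGroup [Finite G] (A : Rep k G)
    (h : ∀ (H : Subgroup G) (N : Subgroup H) [N.Normal], (Nat.card (H ⧸ N)).Prime →
      Limits.IsZero (groupCohomology ((res H.subtype A).quotientToInvariants N) 1))
    (p : ℕ) [Fact p.Prime] (H : Subgroup G) (hH : IsPGroup p H) :
    Limits.IsZero (groupCohomology (res H.subtype A) 1) := by
  suffices hmain : ∀ (m : ℕ) (H : Subgroup G), Nat.card H = m → IsPGroup p H →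
      Limits.IsZero (groupCohomology (res H.subtype A) 1) from hmain _ H rfl hH
  intro m
  induction m using Nat.strong_induction_on with
  | _ m ih =>
    intro H hm hp
    by_cases htriv : Subsingleton H
    · exact isZero_groupCohomology_succ_of_subsingleton _ 0
    · rw [not_subsingleton_iff_nontrivial] at htriv
      obtain ⟨N, hN, hidx⟩ := exists_normal_index_eq_prime p hp
      have hlt : Nat.card (N.map H.subtype) < m := by
        rw [Subgroup.card_map_of_injective H.subtype_injective, ← hm]
        have h1 := N.index_mul_card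
        rw [hidx] at h1
        have hpos : 0 < Nat.card N := Nat.card_pos
        have h2 : 2 ≤ p := (Fact.out : p.Prime).two_le
        nlinarith
      have h3 : Limits.IsZero (groupCohomology (res N.subtype (res H.subtype A)) 1) :=
        (ih _ hlt (N.map H.subtype) rfl ((hp.to_subgroup N).map H.subtype)).of_iso
          (resMapIso A H N 1)
      have h1 : Limits.IsZero (groupCohomology ((res H.subtype A).quotientToInvariants N) 1) := by
        refine h H N ?_
        rw [← Subgroup.index_eq_card, hidx]
        exact Fact.out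
      have hex := H1InfRes_exact (res H.subtype A) N
      exact hex.isZero_of_both_zeros (h1.eq_of_src _ _) (h3.eq_of_tgt _ _)

/-- **C1-d, degree 1**, from the Sylow corollary of C1-b (as a hypothesis `hb`). -/
theorem isZero_H1_of_prime_layers_of [Finite G] (A : Rep k G)
    (hb : (∀ p : ℕ, p.Prime → ∃ S : Subgroup G, ¬ p ∣ S.index ∧
        Limits.IsZero (groupCohomology (res S.subtype A) 1)) →
      Limits.IsZero (groupCohomology A 1))
    (h : ∀ (H : Subgroup G) (N : Subgroup H) [N.Normal], (Nat.card (H ⧸ N)).Prime →
      Limits.IsZero (groupCohomology ((res H.subtype A).quotientToInvariants N) 1)) :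
    Limits.IsZero (groupCohomology A 1) := by
  refine hb fun p hp => ?_
  have : Fact p.Prime := ⟨hp⟩
  obtain ⟨P⟩ : Nonempty (Sylow p G) := inferInstance
  exact ⟨P, P.not_dvd_index, isZero_H1_of_isPGroup A h p P P.isPGroup'⟩

/-- For an exact short complex of modules, `#X₂` divides `#X₁ * #X₃` (with `Nat.card`, so the
statement is void if `X₁` or `X₃` is infinite). -/
theorem natCard_dvd_of_exact (S : ShortComplex (ModuleCat.{u} k)) (hS : S.Exact) :
    Nat.card S.X₂ ∣ Nat.card S.X₁ * Nat.card S.X₃ := by
  rw [ShortComplex.moduleCat_exact_iff_range_eq_ker] at hS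
  have h1 : Nat.card S.X₂ = Nat.card (S.X₂ ⧸ LinearMap.ker S.g.hom) *
      Nat.card (LinearMap.ker S.g.hom) :=
    (LinearMap.ker S.g.hom).toAddSubgroup.card_eq_card_quotient_mul_card_addSubgroup
  have h2 : Nat.card (S.X₂ ⧸ LinearMap.ker S.g.hom) = Nat.card (LinearMap.range S.g.hom) :=
    Nat.card_congr S.g.hom.quotKerEquivRange.toEquiv
  have h3 : Nat.card (LinearMap.range S.g.hom) ∣ Nat.card S.X₃ :=
    (LinearMap.range S.g.hom).toAddSubgroup.card_addSubgroup_dvd_card
  have h4 : Nat.card (LinearMap.ker S.g.hom) ∣ Nat.card S.X₁ := by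
    rw [← hS]
    exact AddSubgroup.card_range_dvd S.f.hom.toAddMonoidHom
  rw [h1, h2, mul_comm]
  exact mul_dvd_mul h4 h3

/-- **C1-d, degree 2, `p`-subgroups.**  `#H²(H, A) ∣ #H` for every `p`-subgroup `H` of `G`, from
the inflation-restriction divisibility `hIR` (C1-c), the vanishing of `H¹` on subgroups and the
divisibility on the layers of prime order. -/
theorem natCard_H2_dvd_of_isPGroup [Finite G] (A : Rep k G)
    (hIR : ∀ (H : Subgroup G) (N : Subgroup H) [N.Normal],
      Limits.IsZero (groupCohomology (res N.subtype (res H.subtype A)) 1) →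
      Nat.card (groupCohomology (res H.subtype A) 2) ∣
        Nat.card (groupCohomology ((res H.subtype A).quotientToInvariants N) 2) *
          Nat.card (groupCohomology (res N.subtype (res H.subtype A)) 2))
    (h1 : ∀ H : Subgroup G, Limits.IsZero (groupCohomology (res H.subtype A) 1))
    (h2 : ∀ (H : Subgroup G) (N : Subgroup H) [N.Normal], (Nat.card (H ⧸ N)).Prime →
      Nat.card (groupCohomology ((res H.subtype A).quotientToInvariants N) 2) ∣
        Nat.card (H ⧸ N))
    (p : ℕ) [Fact p.Prime] (H : Subgroup G) (hH : IsPGroup p H) :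
    Nat.card (groupCohomology (res H.subtype A) 2) ∣ Nat.card H := by
  suffices hmain : ∀ (m : ℕ) (H : Subgroup G), Nat.card H = m → IsPGroup p H →
      Nat.card (groupCohomology (res H.subtype A) 2) ∣ Nat.card H from hmain _ H rfl hH
  intro m
  induction m using Nat.strong_induction_on with
  | _ m ih =>
    intro H hm hp
    by_cases htriv : Subsingleton H
    · have hz : Limits.IsZero (groupCohomology (res H.subtype A) 2) :=
        isZero_groupCohomology_succ_of_subsingleton _ 1
      have := ModuleCat.subsingleton_of_isZero hz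
      rw [Nat.card_of_subsingleton (0 : groupCohomology (res H.subtype A) 2)]
      exact one_dvd _
    · rw [not_subsingleton_iff_nontrivial] at htriv
      obtain ⟨N, hN, hidx⟩ := exists_normal_index_eq_prime p hp
      have hcard : Nat.card (N.map H.subtype) = Nat.card N :=
        Subgroup.card_map_of_injective H.subtype_injective
      have hlt : Nat.card (N.map H.subtype) < m := by
        rw [hcard, ← hm]
        have h1 := N.index_mul_card
        rw [hidx] at h1
        have hpos : 0 < Nat.card N := Nat.card_pos
        have h2 : 2 ≤ p := (Fact.out : p.Prime).two_le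
        nlinarith
      have h3 : Limits.IsZero (groupCohomology (res N.subtype (res H.subtype A)) 1) :=
        (h1 (N.map H.subtype)).of_iso (resMapIso A H N 1)
      have h4 : Nat.card (groupCohomology (res N.subtype (res H.subtype A)) 2) ∣ Nat.card N := by
        rw [Nat.card_congr (resMapIso A H N 2).toLinearEquiv.toEquiv, ← hcard]
        exact ih _ hlt (N.map H.subtype) rfl ((hp.to_subgroup N).map H.subtype)
      have h5 : Nat.card (groupCohomology ((res H.subtype A).quotientToInvariants N) 2) ∣
          Nat.card (H ⧸ N) := by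
        refine h2 H N ?_
        rw [← Subgroup.index_eq_card, hidx]
        exact Fact.out
      rw [Subgroup.card_eq_card_quotient_mul_card_subgroup N]
      exact (hIR H N h3).trans (mul_dvd_mul h5 h4)

/-- **C1-d, degree 2**, from the Sylow corollary of C1-b (hypothesis `hb`) and the
inflation-restriction divisibility of C1-c (hypothesis `hIR`). -/
theorem natCard_H2_dvd_card_of_prime_layers_of [Finite G] (A : Rep k G)
    (hb : (∀ p : ℕ, p.Prime → ∃ S : Subgroup G, ¬ p ∣ S.index ∧
        Nat.card (groupCohomology (res S.subtype A) 2) ∣ Nat.card S) →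
      Nat.card (groupCohomology A 2) ∣ Nat.card G)
    (hIR : ∀ (H : Subgroup G) (N : Subgroup H) [N.Normal],
      Limits.IsZero (groupCohomology (res N.subtype (res H.subtype A)) 1) →
      Nat.card (groupCohomology (res H.subtype A) 2) ∣
        Nat.card (groupCohomology ((res H.subtype A).quotientToInvariants N) 2) *
          Nat.card (groupCohomology (res N.subtype (res H.subtype A)) 2))
    (h1 : ∀ H : Subgroup G, Limits.IsZero (groupCohomology (res H.subtype A) 1))
    (h2 : ∀ (H : Subgroup G) (N : Subgroup H) [N.Normal], (Nat.card (H ⧸ N)).Prime →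
      Nat.card (groupCohomology ((res H.subtype A).quotientToInvariants N) 2) ∣
        Nat.card (H ⧸ N)) :
    Nat.card (groupCohomology A 2) ∣ Nat.card G := by
  refine hb fun p hp => ?_
  have : Fact p.Prime := ⟨hp⟩
  obtain ⟨P⟩ : Nonempty (Sylow p G) := inferInstance
  exact ⟨P, P.not_dvd_index, natCard_H2_dvd_of_isPGroup A hIR h1 h2 p P P.isPGroup'⟩

end Fermat.Agent.S55.H36
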